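import Mathlib

/-!
# Row LT, tower T1, shared prerequisite (helper671): the module of a unit of a locally compact ring

OFF-MAIN.  Mathlib only.  For a locally compact topological ring `A` the group `Aˣ` acts on `A` by
multiplication and Mathlib's `MeasureTheory.distribHaarChar A : Aˣ →* ℝ≥0` is the module:
`μ (x • s) = distribHaarChar A x * μ s` for every (regular) Haar measure `μ` and every set `s`.

This file: the module of a product, of a finite product, and transport along a topological ring
isomorphism.
-/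

set_option autoImplicit false

open MeasureTheory MeasureTheory.Measure TopologicalSpace
open scoped NNReal Pointwise ENNReal

namespace Fermat.Agent.LT.T1.H671

section Prod

variable {A B : Type*} [Ring A] [Ring B] [TopologicalSpace A] [TopologicalSpace B]
  [IsTopologicalRing A] [IsTopologicalRing B] [LocallyCompactSpace A] [LocallyCompactSpace B]
  [SecondCountableTopology A] [SecondCountableTopology B]

omit [TopologicalSpace A] [TopologicalSpace B] [IsTopologicalRing A] [IsTopologicalRing B]
  [LocallyCompactSpace A] [LocallyCompactSpace B] [SecondCountableTopology A]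
  [SecondCountableTopology B] in
theorem smul_prod_set671 (x : (A × B)ˣ) (s : Set A) (t : Set B) :
    x • (s ×ˢ t) = ((Units.map (RingHom.fst A B).toMonoidHom x) • s) ×ˢ
      ((Units.map (RingHom.snd A B).toMonoidHom x) • t) := by
  ext ⟨a, b⟩
  simp only [Set.mem_smul_set, Set.mem_prod, Units.smul_def, Prod.exists, Units.coe_map,
    RingHom.toMonoidHom_eq_coe, MonoidHom.coe_coe, RingHom.coe_fst, RingHom.coe_snd, smul_eq_mul]
  constructor
  · rintro ⟨a', b', ⟨ha', hb'⟩, h⟩
    have h1 : (x : A × B).1 * a' = a := congrArg Prod.fst h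
    have h2 : (x : A × B).2 * b' = b := congrArg Prod.snd h
    exact ⟨⟨a', ha', h1⟩, ⟨b', hb', h2⟩⟩
  · rintro ⟨⟨a', ha', h1⟩, ⟨b', hb', h2⟩⟩
    exact ⟨a', b', ⟨ha', hb'⟩, Prod.ext h1 h2⟩

/-- The module of a product ring is the product of the modules. -/
theorem distribHaarChar_prod671 (x : (A × B)ˣ) :
    distribHaarChar (A × B) x =
      distribHaarChar A (Units.map (RingHom.fst A B).toMonoidHom x) *
        distribHaarChar B (Units.map (RingHom.snd A B).toMonoidHom x) := by
  borelize A
  borelize B
  let μ : Measure A := addHaar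
  let ν : Measure B := addHaar
  obtain ⟨K₁⟩ := (inferInstance : Nonempty (PositiveCompacts A))
  obtain ⟨K₂⟩ := (inferInstance : Nonempty (PositiveCompacts B))
  have hK₁ : μ (K₁ : Set A) ≠ 0 := (measure_pos_of_nonempty_interior μ K₁.interior_nonempty).ne'
  have hK₂ : ν (K₂ : Set B) ≠ 0 := (measure_pos_of_nonempty_interior ν K₂.interior_nonempty).ne'
  have hK₁' : μ (K₁ : Set A) ≠ ∞ := K₁.isCompact.measure_lt_top.ne
  have hK₂' : ν (K₂ : Set B) ≠ ∞ := K₂.isCompact.measure_lt_top.ne
  refine distribHaarChar_eq_of_measure_smul_eq_mul (μ := μ.prod ν)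
    (s := (K₁ : Set A) ×ˢ (K₂ : Set B)) ?_ ?_ ?_
  · rw [Measure.prod_prod]
    exact mul_ne_zero hK₁ hK₂
  · rw [Measure.prod_prod]
    exact ENNReal.mul_ne_top hK₁' hK₂'
  · rw [smul_prod_set671, Measure.prod_prod, Measure.prod_prod, ← distribHaarChar_mul μ,
      ← distribHaarChar_mul ν, ENNReal.coe_mul]
    ring

end Prod

section Pi

variable {ι : Type*} [Fintype ι] {A : ι → Type*} [∀ i, Ring (A i)] [∀ i, TopologicalSpace (A i)]
  [∀ i, IsTopologicalRing (A i)] [∀ i, LocallyCompactSpace (A i)]
  [∀ i, SecondCountableTopology (A i)]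

omit [Fintype ι] [∀ i, TopologicalSpace (A i)] [∀ i, IsTopologicalRing (A i)]
  [∀ i, LocallyCompactSpace (A i)] [∀ i, SecondCountableTopology (A i)] in
theorem smul_pi_set671 (x : (∀ i, A i)ˣ) (s : ∀ i, Set (A i)) :
    x • (Set.univ.pi s) =
      Set.univ.pi (fun i => (Units.map (Pi.evalRingHom A i).toMonoidHom x) • s i) := by
  ext a
  simp only [Set.mem_smul_set, Set.mem_pi, Set.mem_univ, forall_true_left, Units.smul_def,
    Units.coe_map, RingHom.toMonoidHom_eq_coe, MonoidHom.coe_coe, Pi.evalRingHom_apply,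
    smul_eq_mul]
  constructor
  · rintro ⟨a', ha', h⟩ i
    exact ⟨a' i, ha' i, congrFun h i⟩
  · intro h
    choose a' ha' h' using h
    exact ⟨a', ha', funext h'⟩

/-- The module of a finite product of rings is the product of the modules. -/
theorem distribHaarChar_pi671 (x : (∀ i, A i)ˣ) :
    distribHaarChar (∀ i, A i) x =
      ∏ i, distribHaarChar (A i) (Units.map (Pi.evalRingHom A i).toMonoidHom x) := by
  classical
  let _ : ∀ i, MeasurableSpace (A i) := fun i => borel (A i)
  have : ∀ i, BorelSpace (A i) := fun i => ⟨rfl⟩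
  let μ : ∀ i, Measure (A i) := fun i => addHaar
  have hne : ∀ i, Nonempty (PositiveCompacts (A i)) := fun i => inferInstance
  let K : ∀ i, PositiveCompacts (A i) := fun i => (hne i).some
  have hK : ∀ i, μ i (K i : Set (A i)) ≠ 0 := fun i =>
    (measure_pos_of_nonempty_interior (μ i) (K i).interior_nonempty).ne'
  have hK' : ∀ i, μ i (K i : Set (A i)) ≠ ∞ := fun i => (K i).isCompact.measure_lt_top.ne
  refine distribHaarChar_eq_of_measure_smul_eq_mul (μ := Measure.pi μ)
    (s := Set.univ.pi fun i => (K i : Set (A i))) ?_ ?_ ?_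
  · rw [Measure.pi_pi]
    exact Finset.prod_ne_zero_iff.2 fun i _ => hK i
  · rw [Measure.pi_pi]
    exact (ENNReal.prod_lt_top fun i _ => (hK' i).lt_top).ne
  · rw [smul_pi_set671, Measure.pi_pi, Measure.pi_pi, ENNReal.ofNNReal_finsetProd,
      ← Finset.prod_mul_distrib]
    refine Finset.prod_congr rfl fun i _ => ?_
    rw [← distribHaarChar_mul (μ i)]

end Pi

section Transport

variable {A B : Type*} [Ring A] [Ring B] [TopologicalSpace A] [TopologicalSpace B]
  [IsTopologicalRing A] [IsTopologicalRing B] [LocallyCompactSpace A] [LocallyCompactSpace B]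
  [SecondCountableTopology A] [SecondCountableTopology B]

omit [SecondCountableTopology B] in
/-- The module is invariant under topological ring isomorphisms. -/
theorem distribHaarChar_ringEquiv671 (e : A ≃+* B) (he : Continuous e) (he' : Continuous e.symm)
    (x : Aˣ) :
    distribHaarChar A x = distribHaarChar B (Units.map e.toRingHom.toMonoidHom x) := by
  borelize A
  borelize B
  let ν : Measure B := addHaar
  let E : B ≃ₜ+ A :=
    { e.symm.toAddEquiv with
      continuous_toFun := he'
      continuous_invFun := he }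
  have : (Measure.map E ν).IsAddHaarMeasure := ContinuousAddEquiv.isAddHaarMeasure_map ν E
  obtain ⟨K₁⟩ := (inferInstance : Nonempty (PositiveCompacts A))
  have hmeas : ∀ s : Set A, Measure.map E ν s = ν (e '' s) := by
    intro s
    have h := E.toHomeomorph.toMeasurableEquiv.map_apply (μ := ν) s
    have h' : Measure.map E ν s = ν (E ⁻¹' s) := h
    rw [h']
    congr 1
    ext b
    constructor
    · intro hb
      exact ⟨E b, hb, e.apply_symm_apply b⟩
    · rintro ⟨a, ha, rfl⟩
      show e.symm (e a) ∈ s
      rw [e.symm_apply_apply]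
      exact ha
  have hK₁ : Measure.map E ν (K₁ : Set A) ≠ 0 :=
    (measure_pos_of_nonempty_interior _ K₁.interior_nonempty).ne'
  have hK₁' : Measure.map E ν (K₁ : Set A) ≠ ∞ := K₁.isCompact.measure_lt_top.ne
  refine distribHaarChar_eq_of_measure_smul_eq_mul (μ := Measure.map E ν)
    (s := (K₁ : Set A)) hK₁ hK₁' ?_
  rw [hmeas, hmeas, distribHaarChar_mul ν]
  congr 1
  ext b
  simp only [Set.mem_image, Set.mem_smul_set, Units.smul_def, smul_eq_mul, Units.coe_map,
    RingHom.toMonoidHom_eq_coe, MonoidHom.coe_coe, RingEquiv.toRingHom_eq_coe, RingHom.coe_coe]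
  constructor
  · rintro ⟨_, ⟨a, ha, rfl⟩, rfl⟩
    exact ⟨e a, ⟨a, ha, rfl⟩, (map_mul e _ _).symm⟩
  · rintro ⟨_, ⟨a, ha, rfl⟩, rfl⟩
    exact ⟨(x : A) * a, ⟨a, ha, rfl⟩, map_mul e _ _⟩

end Transport

end Fermat.Agent.LT.T1.H671
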