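import Mathlib
import Fermat.Agent.LT.H11.LC
import Fermat.Agent.LT.H11.SC
import Fermat.Agent.LT.T1.H671.HaarGen

/-!
# Row LT, tower T1, shared prerequisite (helper671): the module of a finite idele

OFF-MAIN.  For a number field `K` and a unit `x` of the finite adele ring:
`distribHaarChar 𝔸_f x = ∏ᶠ v, ‖x v‖` (`finiteAdele_module671`).

Proof: `U = ∏ 𝒪_v` is a compact open subgroup; units of `U` preserve it; for a uniformiser `ϖ` at
`v` the subgroup `π U` (`π` = `ϖ` at `v`, `1` elsewhere) has index `q_v` in `U`; every finite idele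
is a product of a unit of `U` and finitely many local elements.
-/

set_option autoImplicit false

open MeasureTheory MeasureTheory.Measure TopologicalSpace NumberField IsDedekindDomain
open scoped NNReal Pointwise ENNReal RestrictedProduct

noncomputable section

namespace Fermat.Agent.LT.T1.H671

variable (K : Type*) [Field K] [NumberField K]

/-- The integral finite adeles `∏ 𝒪_v`. -/
def intAdeles671 : Set (FiniteAdeleRing (𝓞 K) K) :=
  {a | ∀ v : HeightOneSpectrum (𝓞 K), a v ∈ v.adicCompletionIntegers K}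

theorem isOpen_intAdeles671 : IsOpen (intAdeles671 K) :=
  RestrictedProduct.isOpen_forall_mem
    (R := fun v : HeightOneSpectrum (𝓞 K) => v.adicCompletion K)
    (A := fun v => (v.adicCompletionIntegers K : Set (v.adicCompletion K)))
    (fun _ => Valued.isOpen_valuationSubring _)

theorem isCompact_intAdeles671 : IsCompact (intAdeles671 K) := by
  have : ∀ v : HeightOneSpectrum (𝓞 K), CompactSpace (v.adicCompletionIntegers K) :=
    fun v => Fermat.Agent.LT.H11.LC.compactSpace_integers_h11 K v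
  have h := isCompact_range
    (RestrictedProduct.isEmbedding_structureMap
      (R := fun v : HeightOneSpectrum (𝓞 K) => v.adicCompletion K)
      (A := fun v => (v.adicCompletionIntegers K : Set (v.adicCompletion K)))
      (𝓕 := Filter.cofinite)).continuous
  rw [RestrictedProduct.range_structureMap] at h
  exact h

theorem zero_mem_intAdeles671 : (0 : FiniteAdeleRing (𝓞 K) K) ∈ intAdeles671 K :=
  fun _ => zero_mem _

variable {K}

theorem mul_apply671 (a b : FiniteAdeleRing (𝓞 K) K) (v : HeightOneSpectrum (𝓞 K)) :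
    (a * b) v = a v * b v := rfl

theorem add_apply671 (a b : FiniteAdeleRing (𝓞 K) K) (v : HeightOneSpectrum (𝓞 K)) :
    (a + b) v = a v + b v := rfl

theorem sub_apply671 (a b : FiniteAdeleRing (𝓞 K) K) (v : HeightOneSpectrum (𝓞 K)) :
    (a - b) v = a v - b v := rfl

theorem one_apply671 (v : HeightOneSpectrum (𝓞 K)) :
    (1 : FiniteAdeleRing (𝓞 K) K) v = 1 := rfl

theorem unit_mul_inv_apply671 (u : (FiniteAdeleRing (𝓞 K) K)ˣ) (v : HeightOneSpectrum (𝓞 K)) :
    (u : FiniteAdeleRing (𝓞 K) K) v * ((u⁻¹ : (FiniteAdeleRing (𝓞 K) K)ˣ) :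
      FiniteAdeleRing (𝓞 K) K) v = 1 := by
  rw [← mul_apply671, Units.mul_inv, one_apply671]

theorem unit_apply_ne_zero671 (u : (FiniteAdeleRing (𝓞 K) K)ˣ) (v : HeightOneSpectrum (𝓞 K)) :
    (u : FiniteAdeleRing (𝓞 K) K) v ≠ 0 := by
  intro h
  have := unit_mul_inv_apply671 u v
  rw [h, zero_mul] at this
  exact zero_ne_one this

theorem valued_unit_inv671 (u : (FiniteAdeleRing (𝓞 K) K)ˣ) (v : HeightOneSpectrum (𝓞 K)) :
    Valued.v (((u⁻¹ : (FiniteAdeleRing (𝓞 K) K)ˣ) : FiniteAdeleRing (𝓞 K) K) v)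
      = (Valued.v ((u : FiniteAdeleRing (𝓞 K) K) v))⁻¹ := by
  have h := congrArg Valued.v (unit_mul_inv_apply671 u v)
  rw [map_mul, map_one] at h
  exact eq_inv_of_mul_eq_one_right h

theorem smul_set_eq671 (u : (FiniteAdeleRing (𝓞 K) K)ˣ) (s : Set (FiniteAdeleRing (𝓞 K) K)) :
    u • s = (fun a => (u : FiniteAdeleRing (𝓞 K) K) * a) '' s := by
  ext z
  simp [Set.mem_smul_set, Units.smul_def]

/-- Units of `∏ 𝒪_v` preserve `∏ 𝒪_v`. -/
theorem smul_intAdeles_of_valued_eq_one671 (u : (FiniteAdeleRing (𝓞 K) K)ˣ)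
    (hu : ∀ v, Valued.v ((u : FiniteAdeleRing (𝓞 K) K) v) = 1) :
    u • intAdeles671 K = intAdeles671 K := by
  rw [smul_set_eq671]
  ext a
  constructor
  · rintro ⟨b, hb, rfl⟩ v
    show (u : FiniteAdeleRing (𝓞 K) K) v * b v ∈ v.adicCompletionIntegers K
    rw [HeightOneSpectrum.mem_adicCompletionIntegers, map_mul, hu v, one_mul]
    exact (HeightOneSpectrum.mem_adicCompletionIntegers _ _ _).1 (hb v)
  · intro ha
    refine ⟨((u⁻¹ : (FiniteAdeleRing (𝓞 K) K)ˣ) : FiniteAdeleRing (𝓞 K) K) * a, ?_, ?_⟩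
    · intro v
      show ((u⁻¹ : (FiniteAdeleRing (𝓞 K) K)ˣ) : FiniteAdeleRing (𝓞 K) K) v * a v
        ∈ v.adicCompletionIntegers K
      rw [HeightOneSpectrum.mem_adicCompletionIntegers, map_mul, valued_unit_inv671, hu v,
        inv_one, one_mul]
      exact (HeightOneSpectrum.mem_adicCompletionIntegers _ _ _).1 (ha v)
    · show (u : FiniteAdeleRing (𝓞 K) K) * (_ * a) = a
      rw [← mul_assoc, Units.mul_inv, one_mul]

section Module

variable (K)

theorem locallyCompact_finiteAdele671 : LocallyCompactSpace (FiniteAdeleRing (𝓞 K) K) :=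
  Fermat.Agent.LT.H11.LC.locallyCompactSpace_finiteAdeleRing_h11 K

theorem secondCountable_finiteAdele671 : SecondCountableTopology (FiniteAdeleRing (𝓞 K) K) :=
  Fermat.Agent.LT.H11.SC.secondCountableTopology_finiteAdeleRing_h11 K

end Module

attribute [local instance] locallyCompact_finiteAdele671 secondCountable_finiteAdele671

/-- The module of a unit of `∏ 𝒪_v` is `1`. -/
theorem distribHaarChar_of_valued_eq_one671 (u : (FiniteAdeleRing (𝓞 K) K)ˣ)
    (hu : ∀ v, Valued.v ((u : FiniteAdeleRing (𝓞 K) K) v) = 1) :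
    distribHaarChar (FiniteAdeleRing (𝓞 K) K) u = 1 := by
  borelize (FiniteAdeleRing (𝓞 K) K)
  let μ : Measure (FiniteAdeleRing (𝓞 K) K) := addHaar
  have h0 : μ (intAdeles671 K) ≠ 0 :=
    ((isOpen_intAdeles671 K).measure_pos μ ⟨0, zero_mem_intAdeles671 K⟩).ne'
  have h1 : μ (intAdeles671 K) ≠ ∞ := (isCompact_intAdeles671 K).measure_lt_top.ne
  refine distribHaarChar_eq_of_measure_smul_eq_mul (μ := μ) (s := intAdeles671 K) h0 h1 ?_
  rw [smul_intAdeles_of_valued_eq_one671 u hu]
  simp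

/-! ### Local elements -/

open scoped Classical in
/-- The finite adele equal to `y` at `v` and to `1` elsewhere. -/
def localElt671 (v : HeightOneSpectrum (𝓞 K)) (y : v.adicCompletion K) :
    FiniteAdeleRing (𝓞 K) K :=
  RestrictedProduct.mulSingle (fun v : HeightOneSpectrum (𝓞 K) => v.adicCompletionIntegers K) v y

open scoped Classical in
/-- The finite adele equal to `y` at `v` and to `0` elsewhere. -/
def localAdd671 (v : HeightOneSpectrum (𝓞 K)) (y : v.adicCompletion K) :
    FiniteAdeleRing (𝓞 K) K :=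
  RestrictedProduct.single (fun v : HeightOneSpectrum (𝓞 K) => v.adicCompletionIntegers K) v y

theorem localElt_same671 (v : HeightOneSpectrum (𝓞 K)) (y : v.adicCompletion K) :
    localElt671 v y v = y := by
  classical
  exact RestrictedProduct.mulSingle_eq_same _ v y

theorem localElt_of_ne671 {v w : HeightOneSpectrum (𝓞 K)} (y : v.adicCompletion K) (h : w ≠ v) :
    localElt671 v y w = 1 := by
  classical
  exact RestrictedProduct.mulSingle_eq_of_ne _ y h

theorem localAdd_same671 (v : HeightOneSpectrum (𝓞 K)) (y : v.adicCompletion K) :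
    localAdd671 v y v = y := by
  classical
  exact RestrictedProduct.single_eq_same _ v y

theorem localAdd_of_ne671 {v w : HeightOneSpectrum (𝓞 K)} (y : v.adicCompletion K) (h : w ≠ v) :
    localAdd671 v y w = 0 := by
  classical
  exact RestrictedProduct.single_eq_of_ne _ y h

theorem localElt_mul671 (v : HeightOneSpectrum (𝓞 K)) (y z : v.adicCompletion K) :
    localElt671 v (y * z) = localElt671 v y * localElt671 v z := by
  classical
  exact RestrictedProduct.mulSingle_mul _ v y z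

theorem localElt_one671 (v : HeightOneSpectrum (𝓞 K)) :
    localElt671 v (1 : v.adicCompletion K) = 1 := by
  classical
  exact RestrictedProduct.mulSingle_one _ v

/-- The finite idele equal to `y` at `v` and to `1` elsewhere. -/
def localUnit671 (v : HeightOneSpectrum (𝓞 K)) :
    (v.adicCompletion K)ˣ →* (FiniteAdeleRing (𝓞 K) K)ˣ where
  toFun y :=
    { val := localElt671 v (y : v.adicCompletion K)
      inv := localElt671 v ((y⁻¹ : (v.adicCompletion K)ˣ) : v.adicCompletion K)
      val_inv := by rw [← localElt_mul671, Units.mul_inv, localElt_one671]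
      inv_val := by rw [← localElt_mul671, Units.inv_mul, localElt_one671] }
  map_one' := Units.ext (localElt_one671 v)
  map_mul' y z := Units.ext (localElt_mul671 v _ _)

theorem localUnit_same671 (v : HeightOneSpectrum (𝓞 K)) (y : (v.adicCompletion K)ˣ) :
    ((localUnit671 v y : (FiniteAdeleRing (𝓞 K) K)ˣ) : FiniteAdeleRing (𝓞 K) K) v = y :=
  localElt_same671 v _

theorem localUnit_of_ne671 {v w : HeightOneSpectrum (𝓞 K)} (y : (v.adicCompletion K)ˣ)
    (h : w ≠ v) :
    ((localUnit671 v y : (FiniteAdeleRing (𝓞 K) K)ˣ) : FiniteAdeleRing (𝓞 K) K) w = 1 :=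
  localElt_of_ne671 _ h

/-- The module of a local unit of valuation `1` is `1`. -/
theorem distribHaarChar_localUnit_of_valued_eq_one671 (v : HeightOneSpectrum (𝓞 K))
    (y : (v.adicCompletion K)ˣ) (hy : Valued.v (y : v.adicCompletion K) = 1) :
    distribHaarChar (FiniteAdeleRing (𝓞 K) K) (localUnit671 v y) = 1 := by
  refine distribHaarChar_of_valued_eq_one671 _ fun w => ?_
  by_cases h : w = v
  · subst h
    rw [localUnit_same671, hy]
  · rw [localUnit_of_ne671 _ h, map_one]

/-! ### The index of `π U` in `U` -/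

theorem lt_one_iff_le_exp_neg_one671 (x : WithZero (Multiplicative ℤ)) :
    x < 1 ↔ x ≤ WithZero.exp (-1 : ℤ) := by
  by_cases hx : x = 0
  · subst hx
    simp
  · obtain ⟨n, rfl⟩ : ∃ n : ℤ, x = WithZero.exp n := ⟨WithZero.log x, (WithZero.exp_log hx).symm⟩
    rw [← WithZero.exp_zero, WithZero.exp_lt_exp, WithZero.exp_le_exp]
    omega

/-- The subgroup `{a ∈ U : v(a_v) < 1}` of the integral adeles. -/
def intAdelesLt671 (v : HeightOneSpectrum (𝓞 K)) : Set (FiniteAdeleRing (𝓞 K) K) :=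
  {a | a ∈ intAdeles671 K ∧ Valued.v (a v) < 1}

/-- `π U = {a ∈ U : v(a_v) < 1}`. -/
theorem smul_intAdeles_uniformizer671 (v : HeightOneSpectrum (𝓞 K)) (ϖ : (v.adicCompletion K)ˣ)
    (hϖ : Valued.v (ϖ : v.adicCompletion K) = WithZero.exp (-1 : ℤ)) :
    localUnit671 v ϖ • intAdeles671 K = intAdelesLt671 v := by
  rw [smul_set_eq671]
  ext a
  constructor
  · rintro ⟨b, hb, rfl⟩
    have hbv : Valued.v (b v) ≤ 1 := (HeightOneSpectrum.mem_adicCompletionIntegers _ _ _).1 (hb v)
    have hv : Valued.v ((((localUnit671 v ϖ : (FiniteAdeleRing (𝓞 K) K)ˣ) :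
        FiniteAdeleRing (𝓞 K) K) * b) v) ≤ WithZero.exp (-1 : ℤ) := by
      rw [mul_apply671, localUnit_same671, map_mul, hϖ]
      calc WithZero.exp (-1 : ℤ) * Valued.v (b v) ≤ WithZero.exp (-1 : ℤ) * 1 :=
            mul_le_mul_right hbv _
        _ = WithZero.exp (-1 : ℤ) := mul_one _
    refine ⟨fun w => ?_, (lt_one_iff_le_exp_neg_one671 _).2 hv⟩
    by_cases h : w = v
    · subst h
      rw [HeightOneSpectrum.mem_adicCompletionIntegers]
      exact ((lt_one_iff_le_exp_neg_one671 _).2 hv).le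
    · show ((localUnit671 v ϖ : (FiniteAdeleRing (𝓞 K) K)ˣ) : FiniteAdeleRing (𝓞 K) K) w * b w
        ∈ w.adicCompletionIntegers K
      rw [localUnit_of_ne671 _ h, one_mul]
      exact hb w
  · rintro ⟨haU, hav⟩
    refine ⟨(((localUnit671 v ϖ)⁻¹ : (FiniteAdeleRing (𝓞 K) K)ˣ) : FiniteAdeleRing (𝓞 K) K) * a,
      ?_, ?_⟩
    · intro w
      show (((localUnit671 v ϖ)⁻¹ : (FiniteAdeleRing (𝓞 K) K)ˣ) : FiniteAdeleRing (𝓞 K) K) w * a w
        ∈ w.adicCompletionIntegers K
      rw [← map_inv]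
      by_cases h : w = v
      · subst h
        rw [localUnit_same671, HeightOneSpectrum.mem_adicCompletionIntegers, map_mul,
          Units.val_inv_eq_inv_val, map_inv₀, hϖ, WithZero.exp_neg, inv_inv]
        have h2 : Valued.v (a w) ≤ WithZero.exp (-1 : ℤ) := (lt_one_iff_le_exp_neg_one671 _).1 hav
        calc WithZero.exp (1 : ℤ) * Valued.v (a w)
            ≤ WithZero.exp (1 : ℤ) * WithZero.exp (-1 : ℤ) := mul_le_mul_right h2 _
          _ = 1 := by rw [← WithZero.exp_add]; simp
      · rw [localUnit_of_ne671 _ h, one_mul]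
        exact haU w
    · show ((localUnit671 v ϖ : (FiniteAdeleRing (𝓞 K) K)ˣ) : FiniteAdeleRing (𝓞 K) K) * (_ * a) = a
      rw [← mul_assoc, Units.mul_inv, one_mul]

theorem neg_apply671 (a : FiniteAdeleRing (𝓞 K) K) (v : HeightOneSpectrum (𝓞 K)) :
    (-a) v = -(a v) := rfl

theorem continuous_eval671 (v : HeightOneSpectrum (𝓞 K)) :
    Continuous fun a : FiniteAdeleRing (𝓞 K) K => a v :=
  RestrictedProduct.continuous_eval
    (R := fun v : HeightOneSpectrum (𝓞 K) => v.adicCompletion K)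
    (A := fun v => (v.adicCompletionIntegers K : Set (v.adicCompletion K))) v

theorem isOpen_intAdelesLt671 (v : HeightOneSpectrum (𝓞 K)) : IsOpen (intAdelesLt671 (K := K) v) := by
  have h : intAdelesLt671 (K := K) v
      = intAdeles671 K ∩ (fun a : FiniteAdeleRing (𝓞 K) K => a v) ⁻¹' {z | Valued.v z < 1} := rfl
  rw [h]
  exact (isOpen_intAdeles671 K).inter
    ((Fermat.Agent.LT.H11.LC.isOpen_valued_lt_one_h11 K v).preimage (continuous_eval671 v))

theorem valued_algebraMap_le_one671 (v : HeightOneSpectrum (𝓞 K)) (t : 𝓞 K) :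
    Valued.v (algebraMap (𝓞 K) (v.adicCompletion K) t) ≤ 1 := by
  have h2 := HeightOneSpectrum.valuedAdicCompletion_eq_valuation (K := K) v t
  have h3 : Valued.v (algebraMap (𝓞 K) (v.adicCompletion K) t)
      = v.valuation K (algebraMap (𝓞 K) K t) := h2
  rw [h3]
  exact HeightOneSpectrum.valuation_le_one v t

theorem valued_algebraMap_lt_one_iff671 (v : HeightOneSpectrum (𝓞 K)) (t : 𝓞 K) :
    Valued.v (algebraMap (𝓞 K) (v.adicCompletion K) t) < 1 ↔ t ∈ v.asIdeal := by
  have h2 := HeightOneSpectrum.valuedAdicCompletion_eq_valuation (K := K) v t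
  have h3 : Valued.v (algebraMap (𝓞 K) (v.adicCompletion K) t)
      = v.valuation K (algebraMap (𝓞 K) K t) := h2
  rw [h3]
  exact HeightOneSpectrum.valuation_lt_one_iff_mem v t

/-- The coset `t + {a ∈ U : v(a_v) < 1}` of the integral adeles, `t ∈ 𝒪_K` placed at `v`. -/
def intAdelesCoset671 (v : HeightOneSpectrum (𝓞 K)) (t : 𝓞 K) :
    Set (FiniteAdeleRing (𝓞 K) K) :=
  {a | a ∈ intAdeles671 K ∧ Valued.v (a v - algebraMap (𝓞 K) (v.adicCompletion K) t) < 1}

theorem intAdelesCoset_eq_preimage671 (v : HeightOneSpectrum (𝓞 K)) (t : 𝓞 K) :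
    intAdelesCoset671 v t = (fun a : FiniteAdeleRing (𝓞 K) K =>
      a + (-localAdd671 v (algebraMap (𝓞 K) (v.adicCompletion K) t))) ⁻¹' intAdelesLt671 v := by
  ext a
  have hv : (a + (-localAdd671 v (algebraMap (𝓞 K) (v.adicCompletion K) t))) v
      = a v - algebraMap (𝓞 K) (v.adicCompletion K) t := by
    rw [add_apply671, neg_apply671, localAdd_same671, sub_eq_add_neg]
  have hw : ∀ w, w ≠ v → (a + (-localAdd671 v (algebraMap (𝓞 K) (v.adicCompletion K) t))) w
      = a w := by
    intro w h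
    rw [add_apply671, neg_apply671, localAdd_of_ne671 _ h, neg_zero, add_zero]
  have ht : algebraMap (𝓞 K) (v.adicCompletion K) t ∈ v.adicCompletionIntegers K :=
    (HeightOneSpectrum.mem_adicCompletionIntegers _ _ _).2 (valued_algebraMap_le_one671 v t)
  simp only [intAdelesCoset671, intAdelesLt671, intAdeles671, Set.mem_ofPred_eq, Set.mem_preimage]
  constructor
  · rintro ⟨haU, hav⟩
    refine ⟨fun w => ?_, by rw [hv]; exact hav⟩
    by_cases h : w = v
    · subst h
      rw [hv]
      exact sub_mem (haU w) ht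
    · rw [hw w h]
      exact haU w
  · rintro ⟨haU, hav⟩
    refine ⟨fun w => ?_, by rw [← hv]; exact hav⟩
    by_cases h : w = v
    · subst h
      have := haU w
      rw [hv] at this
      have h2 := add_mem this ht
      rwa [sub_add_cancel] at h2
    · have := haU w
      rwa [hw w h] at this

theorem isOpen_intAdelesCoset671 (v : HeightOneSpectrum (𝓞 K)) (t : 𝓞 K) :
    IsOpen (intAdelesCoset671 (K := K) v t) := by
  rw [intAdelesCoset_eq_preimage671]
  exact (isOpen_intAdelesLt671 v).preimage (by fun_prop)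

/-- `U` is the disjoint union of `q_v` cosets of `π U`: measure form. -/
theorem measure_intAdeles_eq671 (v : HeightOneSpectrum (𝓞 K))
    [MeasurableSpace (FiniteAdeleRing (𝓞 K) K)] [BorelSpace (FiniteAdeleRing (𝓞 K) K)]
    (μ : Measure (FiniteAdeleRing (𝓞 K) K)) [μ.IsAddHaarMeasure] :
    μ (intAdeles671 K) = (Ideal.absNorm v.asIdeal : ℝ≥0∞) * μ (intAdelesLt671 v) := by
  classical
  have hfin : Finite (𝓞 K ⧸ v.asIdeal) := Ideal.finiteQuotientOfFreeOfNeBot _ v.ne_bot
  let _ : Fintype (𝓞 K ⧸ v.asIdeal) := Fintype.ofFinite _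
  let t : (𝓞 K ⧸ v.asIdeal) → 𝓞 K := Function.surjInv Ideal.Quotient.mk_surjective
  have ht : ∀ c, Ideal.Quotient.mk v.asIdeal (t c) = c :=
    Function.surjInv_eq Ideal.Quotient.mk_surjective
  have hU : intAdeles671 K = ⋃ c ∈ (Finset.univ : Finset (𝓞 K ⧸ v.asIdeal)),
      intAdelesCoset671 v (t c) := by
    ext a
    simp only [Finset.mem_univ, Set.iUnion_true, Set.mem_iUnion]
    constructor
    · intro ha
      obtain ⟨r, hr⟩ := Fermat.Agent.LT.H11.LC.exists_valued_sub_algebraMap_lt_one_h11 K v (a v)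
        ((HeightOneSpectrum.mem_adicCompletionIntegers _ _ _).1 (ha v))
      refine ⟨Ideal.Quotient.mk v.asIdeal r, ha, ?_⟩
      have h1 : r - t (Ideal.Quotient.mk v.asIdeal r) ∈ v.asIdeal := by
        rw [← Ideal.Quotient.eq, ht]
      have h2 := (valued_algebraMap_lt_one_iff671 v _).2 h1
      have h3 : a v - algebraMap (𝓞 K) (v.adicCompletion K) (t (Ideal.Quotient.mk v.asIdeal r))
          = (a v - algebraMap (𝓞 K) (v.adicCompletion K) r)
            + algebraMap (𝓞 K) (v.adicCompletion K) (r - t (Ideal.Quotient.mk v.asIdeal r)) := by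
        rw [map_sub]
        ring
      rw [h3]
      exact lt_of_le_of_lt (Valuation.map_add _ _ _) (max_lt hr h2)
    · rintro ⟨c, hc⟩
      exact hc.1
  have hdisj : ((Finset.univ : Finset (𝓞 K ⧸ v.asIdeal)) : Set (𝓞 K ⧸ v.asIdeal)).PairwiseDisjoint
      (fun c => intAdelesCoset671 (K := K) v (t c)) := by
    intro c _ c' _ hcc'
    rw [Function.onFun, Set.disjoint_left]
    rintro a ⟨_, h1⟩ ⟨_, h2⟩
    apply hcc'
    have h3 : algebraMap (𝓞 K) (v.adicCompletion K) (t c - t c')
        = (a v - algebraMap (𝓞 K) (v.adicCompletion K) (t c'))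
          - (a v - algebraMap (𝓞 K) (v.adicCompletion K) (t c)) := by
      rw [map_sub]
      ring
    have h4 : Valued.v (algebraMap (𝓞 K) (v.adicCompletion K) (t c - t c')) < 1 := by
      rw [h3]
      exact lt_of_le_of_lt (Valuation.map_sub _ _ _) (max_lt h2 h1)
    have h5 := (valued_algebraMap_lt_one_iff671 v _).1 h4
    rw [← ht c, ← ht c', Ideal.Quotient.eq]
    exact h5
  have hmeas : ∀ c ∈ (Finset.univ : Finset (𝓞 K ⧸ v.asIdeal)),
      MeasurableSet (intAdelesCoset671 (K := K) v (t c)) :=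
    fun c _ => (isOpen_intAdelesCoset671 v (t c)).measurableSet
  have hterm : ∀ c, μ (intAdelesCoset671 (K := K) v (t c)) = μ (intAdelesLt671 v) := by
    intro c
    rw [intAdelesCoset_eq_preimage671]
    exact measure_preimage_add_right μ _ _
  rw [hU, measure_biUnion_finset hdisj hmeas]
  simp only [hterm, Finset.sum_const, Finset.card_univ, nsmul_eq_mul]
  congr 2
  rw [Ideal.absNorm_apply, Submodule.cardQuot_apply, Nat.card_eq_fintype_card]

/-! ### The module of a local unit -/

theorem nnnorm_eq_zpow671 (v : HeightOneSpectrum (𝓞 K)) (y : v.adicCompletion K) (n : ℤ)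
    (h : Valued.v y = WithZero.exp n) : ‖y‖₊ = (Ideal.absNorm v.asIdeal : ℝ≥0) ^ n := by
  apply NNReal.coe_injective
  rw [coe_nnnorm, FinitePlace.norm_def, h]
  have hne : (WithZero.exp n : WithZero (Multiplicative ℤ)) ≠ 0 := WithZero.exp_ne_zero
  rw [WithZeroMulInt.toNNReal_neg_apply _ hne]
  simp [WithZero.exp]

theorem nnnorm_eq_one_of_valued_eq_one671 (v : HeightOneSpectrum (𝓞 K)) (y : v.adicCompletion K)
    (h : Valued.v y = 1) : ‖y‖₊ = 1 := by
  have := nnnorm_eq_zpow671 v y 0 (by rw [h, WithZero.exp_zero])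
  simpa using this

theorem hom_inv671 {G : Type*} [Group G] (φ : G →* ℝ≥0) (g : G) : φ g⁻¹ = (φ g)⁻¹ := by
  have h : φ g * φ g⁻¹ = 1 := by rw [← map_mul, mul_inv_cancel, map_one]
  exact eq_inv_of_mul_eq_one_right h

theorem hom_zpow671 {G : Type*} [Group G] (φ : G →* ℝ≥0) (g : G) (n : ℤ) :
    φ (g ^ n) = φ g ^ n := by
  cases n with
  | ofNat k => simp
  | negSucc k => rw [zpow_negSucc, zpow_negSucc, hom_inv671, map_pow]

/-- The module of the idele `ϖ` at `v`, `1` elsewhere (`ϖ` a uniformiser) is `q_v⁻¹`. -/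
theorem distribHaarChar_localUnit_uniformizer671 (v : HeightOneSpectrum (𝓞 K))
    (ϖ : (v.adicCompletion K)ˣ)
    (hϖ : Valued.v (ϖ : v.adicCompletion K) = WithZero.exp (-1 : ℤ)) :
    distribHaarChar (FiniteAdeleRing (𝓞 K) K) (localUnit671 v ϖ)
      = (Ideal.absNorm v.asIdeal : ℝ≥0)⁻¹ := by
  borelize (FiniteAdeleRing (𝓞 K) K)
  let μ : Measure (FiniteAdeleRing (𝓞 K) K) := addHaar
  have h0 : μ (intAdeles671 K) ≠ 0 :=
    ((isOpen_intAdeles671 K).measure_pos μ ⟨0, zero_mem_intAdeles671 K⟩).ne'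
  have h1 : μ (intAdeles671 K) ≠ ∞ := (isCompact_intAdeles671 K).measure_lt_top.ne
  refine distribHaarChar_eq_of_measure_smul_eq_mul (μ := μ) (s := intAdeles671 K) h0 h1 ?_
  rw [smul_intAdeles_uniformizer671 v ϖ hϖ, measure_intAdeles_eq671 v μ, ← mul_assoc]
  have hq : (Ideal.absNorm v.asIdeal : ℝ≥0) ≠ 0 := HeightOneSpectrum.absNorm_ne_zero v
  have h2 : (((Ideal.absNorm v.asIdeal : ℝ≥0)⁻¹ : ℝ≥0) : ℝ≥0∞)
      * (Ideal.absNorm v.asIdeal : ℝ≥0∞) = 1 := by
    rw [ENNReal.coe_inv hq]
    have : ((Ideal.absNorm v.asIdeal : ℝ≥0) : ℝ≥0∞) = (Ideal.absNorm v.asIdeal : ℝ≥0∞) := by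
      simp
    rw [this]
    refine ENNReal.inv_mul_cancel ?_ (ENNReal.natCast_ne_top _)
    exact_mod_cast (Nat.cast_ne_zero (R := ℝ≥0)).1 hq
  rw [h2, one_mul]

theorem exists_uniformizer_unit671 (v : HeightOneSpectrum (𝓞 K)) :
    ∃ ϖ : (v.adicCompletion K)ˣ,
      Valued.v (ϖ : v.adicCompletion K) = WithZero.exp (-1 : ℤ) := by
  obtain ⟨π, hπ⟩ := HeightOneSpectrum.valuation_exists_uniformizer K v
  have h1 : Valued.v (algebraMap K (v.adicCompletion K) π) = WithZero.exp (-1 : ℤ) := by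
    rw [← hπ]
    exact HeightOneSpectrum.valuedAdicCompletion_eq_valuation' v π
  have hne : algebraMap K (v.adicCompletion K) π ≠ 0 := by
    intro h
    rw [h, map_zero] at h1
    exact WithZero.exp_ne_zero h1.symm
  exact ⟨Units.mk0 _ hne, h1⟩

/-- The module of the idele `y` at `v`, `1` elsewhere, is `‖y‖_v`. -/
theorem distribHaarChar_localUnit671 (v : HeightOneSpectrum (𝓞 K)) (y : (v.adicCompletion K)ˣ) :
    distribHaarChar (FiniteAdeleRing (𝓞 K) K) (localUnit671 v y)
      = ‖(y : v.adicCompletion K)‖₊ := by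
  obtain ⟨ϖ, hϖ⟩ := exists_uniformizer_unit671 (K := K) v
  have hy0 : Valued.v (y : v.adicCompletion K) ≠ 0 := by
    rw [Valuation.ne_zero_iff]
    exact y.ne_zero
  obtain ⟨n, hn⟩ : ∃ n : ℤ, Valued.v (y : v.adicCompletion K) = WithZero.exp n :=
    ⟨WithZero.log _, (WithZero.exp_log hy0).symm⟩
  have hy' : Valued.v ((y * ϖ ^ n : (v.adicCompletion K)ˣ) : v.adicCompletion K) = 1 := by
    rw [Units.val_mul, Units.val_zpow_eq_zpow_val, map_mul, map_zpow₀, hn, hϖ, ← WithZero.exp_zsmul,
      ← WithZero.exp_add]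
    simp
  have hdec : y = (y * ϖ ^ n) * ϖ ^ (-n) := by
    rw [mul_assoc, ← zpow_add, add_neg_cancel, zpow_zero, mul_one]
  have hφ : ∀ z : (v.adicCompletion K)ˣ,
      distribHaarChar (FiniteAdeleRing (𝓞 K) K) (localUnit671 v z)
        = ((distribHaarChar (FiniteAdeleRing (𝓞 K) K)).comp (localUnit671 v)) z := fun _ => rfl
  conv_lhs => rw [hdec]
  rw [hφ, map_mul, hom_zpow671, ← hφ, ← hφ, distribHaarChar_localUnit_of_valued_eq_one671 v _ hy',
    distribHaarChar_localUnit_uniformizer671 v ϖ hϖ, one_mul, nnnorm_eq_zpow671 v _ n hn,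
    inv_zpow, zpow_neg, inv_inv]

/-! ### The module of a finite idele -/

/-- The component of a finite idele at `v`, as a unit of `K_v`. -/
def unitAt671 (x : (FiniteAdeleRing (𝓞 K) K)ˣ) (v : HeightOneSpectrum (𝓞 K)) :
    (v.adicCompletion K)ˣ :=
  Units.mk0 ((x : FiniteAdeleRing (𝓞 K) K) v) (unit_apply_ne_zero671 x v)

theorem distribHaarChar_finset671 (S : Finset (HeightOneSpectrum (𝓞 K))) :
    ∀ x : (FiniteAdeleRing (𝓞 K) K)ˣ,
      (∀ v, v ∉ S → Valued.v ((x : FiniteAdeleRing (𝓞 K) K) v) = 1) →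
      distribHaarChar (FiniteAdeleRing (𝓞 K) K) x
        = ∏ v ∈ S, ‖(x : FiniteAdeleRing (𝓞 K) K) v‖₊ := by
  classical
  induction S using Finset.induction_on with
  | empty =>
    intro x hx
    rw [Finset.prod_empty]
    exact distribHaarChar_of_valued_eq_one671 x fun v => hx v (Finset.notMem_empty v)
  | insert v S hv ih =>
    intro x hx
    set y : (v.adicCompletion K)ˣ := unitAt671 x v with hy
    set x' : (FiniteAdeleRing (𝓞 K) K)ˣ := x * (localUnit671 v y)⁻¹ with hx'
    have hx'v : ((x' : (FiniteAdeleRing (𝓞 K) K)ˣ) : FiniteAdeleRing (𝓞 K) K) v = 1 := by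
      rw [hx', Units.val_mul, mul_apply671, ← map_inv, localUnit_same671]
      show (x : FiniteAdeleRing (𝓞 K) K) v * ((y⁻¹ : (v.adicCompletion K)ˣ) : v.adicCompletion K) = 1
      rw [Units.val_inv_eq_inv_val]
      exact mul_inv_cancel₀ (unit_apply_ne_zero671 x v)
    have hx'w : ∀ w, w ≠ v → ((x' : (FiniteAdeleRing (𝓞 K) K)ˣ) : FiniteAdeleRing (𝓞 K) K) w
        = (x : FiniteAdeleRing (𝓞 K) K) w := by
      intro w hw
      rw [hx', Units.val_mul, mul_apply671, ← map_inv, localUnit_of_ne671 _ hw, mul_one]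
    have h1 : ∀ w, w ∉ S → Valued.v (((x' : (FiniteAdeleRing (𝓞 K) K)ˣ) :
        FiniteAdeleRing (𝓞 K) K) w) = 1 := by
      intro w hw
      by_cases h : w = v
      · subst h
        rw [hx'v, map_one]
      · rw [hx'w w h]
        exact hx w (by simp [h, hw])
    have hdec : x = x' * localUnit671 v y := by
      rw [hx', inv_mul_cancel_right]
    have h2 := ih x' h1
    conv_lhs => rw [hdec]
    rw [map_mul, h2, distribHaarChar_localUnit671, Finset.prod_insert hv, mul_comm]
    congr 1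
    refine Finset.prod_congr rfl fun w hw => ?_
    have hwv : w ≠ v := fun h => hv (h ▸ hw)
    rw [hx'w w hwv]

theorem finite_valued_ne_one671 (x : (FiniteAdeleRing (𝓞 K) K)ˣ) :
    {v : HeightOneSpectrum (𝓞 K) | Valued.v ((x : FiniteAdeleRing (𝓞 K) K) v) ≠ 1}.Finite := by
  have h := (FiniteAdeleRing.isUnit_iff (a := (x : FiniteAdeleRing (𝓞 K) K))).1 x.isUnit
  exact h.2

/-- **The module of a finite idele**: `distribHaarChar 𝔸_f x = ∏ᶠ v, ‖x_v‖_v`. -/
theorem finiteAdele_module671 (x : (FiniteAdeleRing (𝓞 K) K)ˣ) :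
    (distribHaarChar (FiniteAdeleRing (𝓞 K) K) x : ℝ)
      = ∏ᶠ v : HeightOneSpectrum (𝓞 K), ‖(x : FiniteAdeleRing (𝓞 K) K) v‖ := by
  classical
  set S : Finset (HeightOneSpectrum (𝓞 K)) := (finite_valued_ne_one671 x).toFinset with hS
  have h1 : ∀ v, v ∉ S → Valued.v ((x : FiniteAdeleRing (𝓞 K) K) v) = 1 := by
    intro v hv
    by_contra h
    exact hv ((finite_valued_ne_one671 x).mem_toFinset.2 h)
  rw [distribHaarChar_finset671 S x h1]
  rw [finprod_eq_prod_of_mulSupport_subset (s := S)]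
  · push_cast
    rfl
  · intro v hv
    rw [Function.mem_mulSupport] at hv
    by_contra h
    apply hv
    have := nnnorm_eq_one_of_valued_eq_one671 v _ (h1 v h)
    have h2 := congrArg NNReal.toReal this
    rwa [coe_nnnorm, NNReal.coe_one] at h2

end Fermat.Agent.LT.T1.H671

end
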