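import Mathlib
import Fermat.Agent.LT.H11.LC
import Fermat.Agent.LT.H11.SC
import Fermat.Agent.LT.T1.H671.HaarGen

/-!
# Row LT, tower T1, shared prerequisite (helper671): the module at the infinite places

OFF-MAIN.  `distribHaarChar ℝ x = ‖x‖`, `distribHaarChar ℂ z = ‖z‖ ^ 2`, the completion of a number
field at an infinite place `w` has module `‖x‖ ^ w.mult`, and the infinite adele ring has module
`∏ w, ‖x w‖ ^ w.mult`.
-/

set_option autoImplicit false

open MeasureTheory MeasureTheory.Measure TopologicalSpace NumberField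
open scoped NNReal Pointwise ENNReal

namespace Fermat.Agent.LT.T1.H671

/-- The module of `ℝ`. -/
theorem distribHaarChar_real671 (x : ℝˣ) : distribHaarChar ℝ x = ‖(x : ℝ)‖₊ := by
  obtain ⟨K₁⟩ := (inferInstance : Nonempty (PositiveCompacts ℝ))
  have hK₁ : (volume : Measure ℝ) (K₁ : Set ℝ) ≠ 0 :=
    (measure_pos_of_nonempty_interior _ K₁.interior_nonempty).ne'
  have hK₁' : (volume : Measure ℝ) (K₁ : Set ℝ) ≠ ∞ := K₁.isCompact.measure_lt_top.ne
  refine distribHaarChar_eq_of_measure_smul_eq_mul (μ := (volume : Measure ℝ))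
    (s := (K₁ : Set ℝ)) hK₁ hK₁' ?_
  have h1 : x • (K₁ : Set ℝ) = (x : ℝ) • (K₁ : Set ℝ) := by
    ext z
    simp [Set.mem_smul_set, Units.smul_def]
  rw [h1, Measure.addHaar_smul]
  congr 1
  simp only [Module.finrank_self, pow_one]
  rw [← Real.norm_eq_abs, ofReal_norm, enorm_eq_nnnorm]

/-- The module of `ℂ`. -/
theorem distribHaarChar_complex671 (z : ℂˣ) : distribHaarChar ℂ z = ‖(z : ℂ)‖₊ ^ 2 := by
  obtain ⟨K₁⟩ := (inferInstance : Nonempty (PositiveCompacts ℂ))
  have hK₁ : (volume : Measure ℂ) (K₁ : Set ℂ) ≠ 0 :=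
    (measure_pos_of_nonempty_interior _ K₁.interior_nonempty).ne'
  have hK₁' : (volume : Measure ℂ) (K₁ : Set ℂ) ≠ ∞ := K₁.isCompact.measure_lt_top.ne
  refine distribHaarChar_eq_of_measure_smul_eq_mul (μ := (volume : Measure ℂ))
    (s := (K₁ : Set ℂ)) hK₁ hK₁' ?_
  have h1 : z • (K₁ : Set ℂ) = (LinearMap.mul ℝ ℂ (z : ℂ)) '' (K₁ : Set ℂ) := by
    ext w
    simp [Set.mem_smul_set, Units.smul_def]
  rw [h1, Measure.addHaar_image_linearMap]
  congr 1
  have h2 : LinearMap.det (LinearMap.mul ℝ ℂ (z : ℂ)) = Complex.normSq (z : ℂ) := by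
    rw [← Algebra.norm_complex_apply, Algebra.norm_apply]
    rfl
  rw [h2, abs_of_nonneg (Complex.normSq_nonneg _), Complex.normSq_eq_norm_sq]
  rw [ENNReal.coe_pow, ← enorm_eq_nnnorm, ← ofReal_norm,
    ENNReal.ofReal_pow (norm_nonneg _)]

section Completion

variable {K : Type*} [Field K] [NumberField K]

/-- The module of the completion of a number field at an infinite place. -/
theorem distribHaarChar_infCompletion671 (w : InfinitePlace K) (x : (w.Completion)ˣ) :
    distribHaarChar w.Completion x = ‖(x : w.Completion)‖₊ ^ w.mult := by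
  have := Fermat.Agent.LT.H11.SC.secondCountableTopology_infCompletion_h11 K w
  rcases w.isReal_or_isComplex with hw | hw
  · rw [distribHaarChar_ringEquiv671 (InfinitePlace.Completion.ringEquivRealOfIsReal hw)
      (InfinitePlace.Completion.isometryEquivRealOfIsReal hw).continuous
      (InfinitePlace.Completion.isometryEquivRealOfIsReal hw).symm.continuous,
      distribHaarChar_real671]
    have hm : w.mult = 1 := by simp [InfinitePlace.mult, hw]
    rw [hm, pow_one]
    have := (InfinitePlace.Completion.isometryEquivRealOfIsReal hw).isometry.nnnorm_map_of_map_zero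
      (map_zero (InfinitePlace.Completion.ringEquivRealOfIsReal hw)) (x : w.Completion)
    exact this
  · rw [distribHaarChar_ringEquiv671 (InfinitePlace.Completion.ringEquivComplexOfIsComplex hw)
      (InfinitePlace.Completion.isometryEquivComplexOfIsComplex hw).continuous
      (InfinitePlace.Completion.isometryEquivComplexOfIsComplex hw).symm.continuous,
      distribHaarChar_complex671]
    have hm : w.mult = 2 := by
      simp [InfinitePlace.mult, InfinitePlace.not_isReal_iff_isComplex.2 hw]
    rw [hm]
    congr 1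
    have := (InfinitePlace.Completion.isometryEquivComplexOfIsComplex
      hw).isometry.nnnorm_map_of_map_zero
      (map_zero (InfinitePlace.Completion.ringEquivComplexOfIsComplex hw)) (x : w.Completion)
    exact this

/-- The module of the infinite adele ring. -/
theorem distribHaarChar_infiniteAdeleRing671 (x : (InfiniteAdeleRing K)ˣ) :
    distribHaarChar (InfiniteAdeleRing K) x
      = ∏ w : InfinitePlace K, ‖(x : InfiniteAdeleRing K) w‖₊ ^ w.mult := by
  have := fun w : InfinitePlace K =>
    Fermat.Agent.LT.H11.SC.secondCountableTopology_infCompletion_h11 K w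
  have h := distribHaarChar_pi671 (A := fun w : InfinitePlace K => w.Completion) x
  refine Eq.trans h ?_
  refine Finset.prod_congr rfl fun w _ => ?_
  rw [distribHaarChar_infCompletion671]
  rfl

end Completion

end Fermat.Agent.LT.T1.H671
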