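import Mathlib
import Fermat.Agent.LT.T1.Spec
import Fermat.Agent.LT.H11.LC
import Fermat.Agent.LT.H11.SC
import Fermat.Agent.LT.T1.H671.HaarGen
import Fermat.Agent.LT.T1.H671.HaarArch
import Fermat.Agent.LT.T1.H671.HaarFin

/-!
# Row LT, tower T1, shared prerequisite (helper671): the module of an idele is `adNorm`

OFF-MAIN.  NOT a leaf of `T1/Spec.lean`; a prerequisite shared by the leaves T1.06 (Fujisaki),
T1.14 (reduction), T1.17 (Siegel volume), T1.20 (elliptic tori) and T3.11.

* `adele_module671 : (distribHaarChar (Adl K) x : ℝ) = adNorm K x` for every idele `x`;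
* `HaarScaleC K` / `haarScaleC671` : for every Haar measure `μ` on `𝔸_K` (Borel σ-algebra), every
  idele `x` and EVERY set `X`: `μ (x X) = ‖x‖_𝔸 · μ X`;
* `haarScale_smul671` : the same with `x • X`;
* `haarScale_of_adNorm_eq_one671` : ideles of module one preserve Haar measure.
-/

set_option autoImplicit false

open MeasureTheory MeasureTheory.Measure TopologicalSpace NumberField IsDedekindDomain
open scoped NNReal Pointwise ENNReal

noncomputable section

namespace Fermat.Agent.LT.T1.H671

open Fermat.Agent.LT.H556.A0 Fermat.Agent.LT.T1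

variable (K : Type) [Field K] [NumberField K]

theorem locallyCompact_adele671 : LocallyCompactSpace (Adl K) :=
  Fermat.Agent.LT.H11.LC.locallyCompactSpace_adeleRing_h11 K

theorem secondCountable_adele671 : SecondCountableTopology (Adl K) :=
  Fermat.Agent.LT.H11.SC.secondCountableTopology_adeleRing_h11 K

attribute [local instance] locallyCompact_adele671 secondCountable_adele671
  locallyCompact_finiteAdele671 secondCountable_finiteAdele671

theorem secondCountable_infiniteAdele671 : SecondCountableTopology (InfiniteAdeleRing K) :=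
  Fermat.Agent.LT.H11.SC.secondCountableTopology_infiniteAdeleRing_h11 K

attribute [local instance] secondCountable_infiniteAdele671

variable {K}

/-- **The module of an idele is its adelic norm.** -/
theorem adele_module671 (x : (Adl K)ˣ) :
    (distribHaarChar (Adl K) x : ℝ) = adNorm K (x : Adl K) := by
  have h := distribHaarChar_prod671 (A := InfiniteAdeleRing K) (B := FiniteAdeleRing (𝓞 K) K) x
  have h' : distribHaarChar (Adl K) x
      = distribHaarChar (InfiniteAdeleRing K)
          (Units.map (RingHom.fst (InfiniteAdeleRing K) (FiniteAdeleRing (𝓞 K) K)).toMonoidHom x)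
        * distribHaarChar (FiniteAdeleRing (𝓞 K) K)
          (Units.map (RingHom.snd (InfiniteAdeleRing K) (FiniteAdeleRing (𝓞 K) K)).toMonoidHom x) :=
    h
  rw [h', NNReal.coe_mul, finiteAdele_module671, distribHaarChar_infiniteAdeleRing671]
  rw [adNorm]
  push_cast
  rfl

theorem adNorm_nonneg_of_unit671 (x : (Adl K)ˣ) : 0 ≤ adNorm K (x : Adl K) := by
  rw [← adele_module671]
  exact NNReal.coe_nonneg _

theorem adNorm_pos_of_unit671 (x : (Adl K)ˣ) : 0 < adNorm K (x : Adl K) := by
  rw [← adele_module671]
  exact_mod_cast distribHaarChar_pos (A := Adl K) (g := x)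

variable (K)

/-- **Scaling of Haar measure on the adeles** (frozen form): for every Haar measure `μ` on `𝔸_K`
(Borel σ-algebra), every idele `x` and every set `X`: `μ (x X) = ‖x‖_𝔸 · μ X`.
Weil BNT IV §4 (the module of an idele); Cassels–Fröhlich II §16. -/
def HaarScaleC : Prop :=
  letI : MeasurableSpace (Adl K) := borel (Adl K)
  ∀ μ : Measure (Adl K), μ.IsAddHaarMeasure → ∀ (x : (Adl K)ˣ) (X : Set (Adl K)),
    μ ((fun y : Adl K => (x : Adl K) * y) '' X) = ENNReal.ofReal (adNorm K (x : Adl K)) * μ X

variable {K}

/-- The same with the pointwise action `x • X`. -/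
theorem haarScale_smul671 [MeasurableSpace (Adl K)] [BorelSpace (Adl K)] (μ : Measure (Adl K))
    [μ.IsAddHaarMeasure] (x : (Adl K)ˣ) (X : Set (Adl K)) :
    μ (x • X) = ENNReal.ofReal (adNorm K (x : Adl K)) * μ X := by
  rw [← distribHaarChar_mul μ x X, ← adele_module671, ENNReal.ofReal_coe_nnreal]

variable (K)

/-- **`HaarScaleC` holds.** -/
theorem haarScaleC671 : HaarScaleC K := by
  let _ : MeasurableSpace (Adl K) := borel (Adl K)
  have : BorelSpace (Adl K) := ⟨rfl⟩
  intro μ hμ x X
  have h := haarScale_smul671 μ x X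
  have h2 : x • X = (fun y : Adl K => (x : Adl K) * y) '' X := by
    ext z
    simp [Set.mem_smul_set, Units.smul_def]
  rw [← h2]
  exact h

/-- Ideles of module one preserve every Haar measure of `𝔸_K`. -/
theorem haarScale_of_adNorm_eq_one671 :
    letI : MeasurableSpace (Adl K) := borel (Adl K)
    ∀ μ : Measure (Adl K), μ.IsAddHaarMeasure → ∀ (x : (Adl K)ˣ) (X : Set (Adl K)),
      adNorm K (x : Adl K) = 1 → μ ((fun y : Adl K => (x : Adl K) * y) '' X) = μ X := by
  intro μ hμ x X hx
  have h := haarScaleC671 K μ hμ x X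
  rw [hx, ENNReal.ofReal_one, one_mul] at h
  exact h

end Fermat.Agent.LT.T1.H671

end
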