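import Mathlib
import Fermat.Agent.LT.T1.Spec
import Fermat.Agent.LT.H11.LC
import Fermat.Agent.LT.H11.SC
import Fermat.Agent.LT.T1.H849.Unimod
import Fermat.Agent.LT.T1.H671.HaarGen
import Fermat.Agent.LT.T1.H671.HaarScale

/-!
# Row LT, tower T1, shared prerequisite (helper671): `GL₂(𝔸_K)` scales the Haar measure of `𝔸_K²`
by `‖det g‖_𝔸`

OFF-MAIN.  NOT a leaf of `T1/Spec.lean`; prerequisite of T1.14 (adelic Minkowski for the lattice
`K² g ⊂ 𝔸_K²`), T1.17, T1.20.

* `distribHaarChar_GL2_671` : over a locally compact second countable commutative topological ring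
  `R` of stable range one (helper849), the module of `g ∈ GL₂(R)` acting on `R²` is the module of
  `det g` acting on `R`.
* `haarScale_GL2_mulVec671`, `haarScale_GL2_vecMul671` : for every Haar measure `μ` on
  `Fin 2 → 𝔸_K` (Borel σ-algebra), `g ∈ GL₂(𝔸_K)` and EVERY set `X`:
  `μ (g X) = ‖det g‖_𝔸 · μ X` (column vectors `g *ᵥ v`, resp. row vectors `v ᵥ* g`).
-/

set_option autoImplicit false

open MeasureTheory MeasureTheory.Measure TopologicalSpace NumberField IsDedekindDomain Matrix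
open scoped NNReal Pointwise ENNReal

noncomputable section

namespace Fermat.Agent.LT.T1.H671

open Fermat.Agent.LT.T1.H849

section General

variable {R : Type*} [CommRing R] [TopologicalSpace R] [IsTopologicalRing R]

theorem continuousConstSMul_GL2_671 : ContinuousConstSMul (GL (Fin 2) R) (Fin 2 → R) :=
  ⟨fun g => by
    show Continuous fun v : Fin 2 → R => (g : Matrix (Fin 2) (Fin 2) R) *ᵥ v
    exact Continuous.matrix_mulVec continuous_const continuous_id⟩

attribute [local instance] continuousConstSMul_GL2_671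

omit [TopologicalSpace R] [IsTopologicalRing R] in
theorem GL2_smul_set_eq671 (g : GL (Fin 2) R) (s : Set (Fin 2 → R)) :
    g • s = (fun v : Fin 2 → R => (g : Matrix (Fin 2) (Fin 2) R) *ᵥ v) '' s := by
  ext z
  simp only [Set.mem_smul_set, Set.mem_image]
  rfl

variable [LocallyCompactSpace R] [SecondCountableTopology R]

/-- The unit of `R²` with components `u`, `v`. -/
def piUnit671 (u v : Rˣ) : (Fin 2 → R)ˣ :=
  MulEquiv.piUnits.symm ![u, v]

omit [TopologicalSpace R] [IsTopologicalRing R] [LocallyCompactSpace R]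
  [SecondCountableTopology R] in
theorem piUnit_apply671 (u v : Rˣ) (i : Fin 2) :
    ((piUnit671 u v : (Fin 2 → R)ˣ) : Fin 2 → R) i = ((![u, v] i : Rˣ) : R) := rfl

omit [TopologicalSpace R] [IsTopologicalRing R] [LocallyCompactSpace R]
  [SecondCountableTopology R] in
theorem dg_smul_set671 (u v : Rˣ) (s : Set (Fin 2 → R)) :
    dg849 u v • s = piUnit671 u v • s := by
  rw [GL2_smul_set_eq671]
  ext z
  simp only [Set.mem_smul_set, Set.mem_image, Units.smul_def, smul_eq_mul]
  have key : ∀ w : Fin 2 → R, ((dg849 u v : GL (Fin 2) R) : Matrix (Fin 2) (Fin 2) R) *ᵥ w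
      = ((piUnit671 u v : (Fin 2 → R)ˣ) : Fin 2 → R) * w := by
    intro w
    ext i
    fin_cases i
    · simp [piUnit_apply671, Matrix.mulVec, dotProduct, Fin.sum_univ_two]
    · simp [piUnit_apply671, Matrix.mulVec, dotProduct, Fin.sum_univ_two]
  constructor
  · rintro ⟨w, hw, rfl⟩
    exact ⟨w, hw, (key w).symm⟩
  · rintro ⟨w, hw, rfl⟩
    exact ⟨w, hw, key w⟩

/-- The module of `diag(u, v)` on `R²`. -/
theorem distribHaarChar_dg671 (u v : Rˣ) :
    distribHaarChar (Fin 2 → R) (dg849 u v) = distribHaarChar R u * distribHaarChar R v := by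
  borelize (Fin 2 → R)
  let μ : Measure (Fin 2 → R) := addHaar
  obtain ⟨K₁⟩ := (inferInstance : Nonempty (PositiveCompacts (Fin 2 → R)))
  have hK₁ : μ (K₁ : Set (Fin 2 → R)) ≠ 0 :=
    (measure_pos_of_nonempty_interior μ K₁.interior_nonempty).ne'
  have hK₁' : μ (K₁ : Set (Fin 2 → R)) ≠ ∞ := K₁.isCompact.measure_lt_top.ne
  refine distribHaarChar_eq_of_measure_smul_eq_mul (μ := μ) (s := (K₁ : Set (Fin 2 → R)))
    hK₁ hK₁' ?_
  rw [dg_smul_set671, ← distribHaarChar_mul μ (piUnit671 u v),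
    distribHaarChar_pi671 (A := fun _ : Fin 2 => R) (piUnit671 u v), Fin.prod_univ_two]
  congr 3

/-- **The module of `g ∈ GL₂(R)` on `R²` is the module of `det g` on `R`** (stable range one). -/
theorem distribHaarChar_GL2_671 (hsr : StableRangeOne849 R) (g : GL (Fin 2) R) :
    distribHaarChar (Fin 2 → R) g = distribHaarChar R (Matrix.GeneralLinearGroup.det g) := by
  have hdet : ((Matrix.GeneralLinearGroup.det g : Rˣ) : R) = g 0 0 * g 1 1 - g 0 1 * g 1 0 := by
    simp [Matrix.det_fin_two]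
  have hinv : (((Matrix.GeneralLinearGroup.det g)⁻¹ : Rˣ) : R)
      * (g 0 0 * g 1 1 - g 0 1 * g 1 0) = 1 := by
    rw [← hdet]; exact Units.inv_mul _
  obtain ⟨x, hx⟩ := hsr (g 0 0) (g 1 0)
    ((((Matrix.GeneralLinearGroup.det g)⁻¹ : Rˣ) : R) * g 1 1)
    (-((((Matrix.GeneralLinearGroup.det g)⁻¹ : Rˣ) : R) * g 0 1))
    (by linear_combination hinv)
  obtain ⟨a', ha'⟩ := hx
  have key := congrArg (distribHaarChar (Fin 2 → R)) (gauss849 g x a' ha')
  rw [map_mul, map_mul, map_mul, hom_loT849 _ nnreal_no_two_torsion849,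
    hom_upT849 _ nnreal_no_two_torsion849, hom_upT849 _ nnreal_no_two_torsion849, one_mul,
    one_mul, mul_one, distribHaarChar_dg671, ← map_mul, mul_inv_cancel_left] at key
  exact key

/-- The transpose of an element of `GL₂(R)`. -/
def transposeGL671 (g : GL (Fin 2) R) : GL (Fin 2) R :=
  ⟨(g : Matrix (Fin 2) (Fin 2) R)ᵀ, ((g⁻¹ : GL (Fin 2) R) : Matrix (Fin 2) (Fin 2) R)ᵀ,
    by rw [← Matrix.transpose_mul, ← Units.val_mul, inv_mul_cancel, Units.val_one,
      Matrix.transpose_one],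
    by rw [← Matrix.transpose_mul, ← Units.val_mul, mul_inv_cancel, Units.val_one,
      Matrix.transpose_one]⟩

omit [TopologicalSpace R] [IsTopologicalRing R] [LocallyCompactSpace R]
  [SecondCountableTopology R] in
theorem det_transposeGL671 (g : GL (Fin 2) R) :
    Matrix.GeneralLinearGroup.det (transposeGL671 g) = Matrix.GeneralLinearGroup.det g := by
  apply Units.ext
  show ((g : Matrix (Fin 2) (Fin 2) R)ᵀ).det = (g : Matrix (Fin 2) (Fin 2) R).det
  exact Matrix.det_transpose _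

end General

section Adele

open Fermat.Agent.LT.H556.A0 Fermat.Agent.LT.T1

variable (K : Type) [Field K] [NumberField K]

attribute [local instance] locallyCompact_adele671 secondCountable_adele671
  continuousConstSMul_GL2_671

variable {K}

/-- **The module of `g ∈ GL₂(𝔸_K)` on `𝔸_K²` is `‖det g‖_𝔸`.** -/
theorem adele2_module671 (g : G K) :
    (distribHaarChar (Fin 2 → Adl K) g : ℝ)
      = adNorm K (Matrix.det (g : Matrix (Fin 2) (Fin 2) (Adl K))) := by
  rw [distribHaarChar_GL2_671 (stableRangeOne_adele849 K) g, adele_module671]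
  rfl

/-- **Scaling of the Haar measure of `𝔸_K²` under `GL₂(𝔸_K)`, column vectors.** -/
theorem haarScale_GL2_mulVec671 [MeasurableSpace (Fin 2 → Adl K)] [BorelSpace (Fin 2 → Adl K)]
    (μ : Measure (Fin 2 → Adl K)) [μ.IsAddHaarMeasure] (g : G K) (X : Set (Fin 2 → Adl K)) :
    μ ((fun v : Fin 2 → Adl K => (g : Matrix (Fin 2) (Fin 2) (Adl K)) *ᵥ v) '' X)
      = ENNReal.ofReal (adNorm K (Matrix.det (g : Matrix (Fin 2) (Fin 2) (Adl K)))) * μ X := by
  rw [← GL2_smul_set_eq671, ← distribHaarChar_mul μ g X, ← adele2_module671,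
    ENNReal.ofReal_coe_nnreal]

/-- **Scaling of the Haar measure of `𝔸_K²` under `GL₂(𝔸_K)`, row vectors.** -/
theorem haarScale_GL2_vecMul671 [MeasurableSpace (Fin 2 → Adl K)] [BorelSpace (Fin 2 → Adl K)]
    (μ : Measure (Fin 2 → Adl K)) [μ.IsAddHaarMeasure] (g : G K) (X : Set (Fin 2 → Adl K)) :
    μ ((fun v : Fin 2 → Adl K => v ᵥ* (g : Matrix (Fin 2) (Fin 2) (Adl K))) '' X)
      = ENNReal.ofReal (adNorm K (Matrix.det (g : Matrix (Fin 2) (Fin 2) (Adl K)))) * μ X := by
  have h := haarScale_GL2_mulVec671 μ (transposeGL671 g) X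
  have h1 : (fun v : Fin 2 → Adl K =>
      ((transposeGL671 g : G K) : Matrix (Fin 2) (Fin 2) (Adl K)) *ᵥ v)
      = fun v : Fin 2 → Adl K => v ᵥ* (g : Matrix (Fin 2) (Fin 2) (Adl K)) := by
    funext v
    exact Matrix.mulVec_transpose _ _
  have h2 : Matrix.det ((transposeGL671 g : G K) : Matrix (Fin 2) (Fin 2) (Adl K))
      = Matrix.det (g : Matrix (Fin 2) (Fin 2) (Adl K)) := Matrix.det_transpose _
  rw [h1, h2] at h
  exact h

/-- Elements of `GL₂(𝔸_K)` with `‖det g‖_𝔸 = 1` preserve every Haar measure of `𝔸_K²`. -/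
theorem haarScale_GL2_of_adNorm_det_eq_one671 [MeasurableSpace (Fin 2 → Adl K)]
    [BorelSpace (Fin 2 → Adl K)] (μ : Measure (Fin 2 → Adl K)) [μ.IsAddHaarMeasure] (g : G K)
    (hg : adNorm K (Matrix.det (g : Matrix (Fin 2) (Fin 2) (Adl K))) = 1)
    (X : Set (Fin 2 → Adl K)) :
    μ ((fun v : Fin 2 → Adl K => v ᵥ* (g : Matrix (Fin 2) (Fin 2) (Adl K))) '' X) = μ X := by
  rw [haarScale_GL2_vecMul671, hg, ENNReal.ofReal_one, one_mul]

end Adele

end Fermat.Agent.LT.T1.H671

end
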